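/-
Project DS (S48), adapter cell: FROM A RESIDUE MAP `φ : ℤ̄ → k` TO A PLACE OF `Q̄`.

`dsad_place`: for `k` algebraically closed of characteristic `ℓ` and `φ : integralClosure ℤ ℂ →+* k`
there are a valuation subring `A` of `Q̄ = AlgebraicClosure ℚ` above `ℓ` and a ring homomorphism
`θ : ResidueField A →+* k` such that `θ (residue x') = φ x` whenever `x' ∈ A` and `ds_iota x' = x`.

(`A` := any valuation subring containing the integers of `Q̄` whose maximal ideal contains
`ker (φ ∘ ds_iota)`, from Mathlib's `Ideal.image_subset_nonunits_valuationSubring`; the residue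
field of `A` is algebraic over the field `ℤ̄_{Q̄} / ker`, and `θ` is `IsAlgClosed.lift`.)
Prefix `dsad_`.
-/
import Mathlib
import Fermat.Agent.DS.Defs

set_option autoImplicit false
set_option linter.style.haveILetI false

noncomputable section

open IsLocalRing Polynomial

namespace Fermat.Agent.DS

/-- the ring of algebraic integers of `Q̄`, as a subring -/
def dsad_R : Subring ds_Qb := (integralClosure ℤ ds_Qb).toSubring

theorem dsad_mem_R {x : ds_Qb} : x ∈ dsad_R ↔ IsIntegral ℤ x := Iff.rfl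

/-- `ds_iota` on the algebraic integers -/
def dsad_toZb : dsad_R →+* ↥(integralClosure ℤ ℂ) where
  toFun x := ⟨ds_iota (x : ds_Qb), map_isIntegral_int ds_iota (dsad_mem_R.1 x.2)⟩
  map_one' := Subtype.ext (by simp)
  map_mul' _ _ := Subtype.ext (by simp)
  map_zero' := Subtype.ext (by simp)
  map_add' _ _ := Subtype.ext (by simp)

theorem dsad_toZb_coe (x : dsad_R) : ((dsad_toZb x : ↥(integralClosure ℤ ℂ)) : ℂ) =
    ds_iota (x : ds_Qb) := rfl

theorem dsad_isIntegral_of_iota {x : ds_Qb} (h : IsIntegral ℤ (ds_iota x)) : IsIntegral ℤ x := by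
  exact (isIntegral_algHom_iff (ds_iota.restrictScalars ℤ) ds_iota_injective).1 h

instance dsad_isIntegral_R : Algebra.IsIntegral ℤ dsad_R := by
  refine ⟨fun x => ?_⟩
  have h : IsIntegral ℤ ((dsad_R.subtype.toIntAlgHom) x) := dsad_mem_R.1 x.2
  exact (isIntegral_algHom_iff (dsad_R.subtype.toIntAlgHom) Subtype.coe_injective).1 h

/-! ### the residue field of a valuation subring of `Q̄` -/

theorem dsad_charP (A : ValuationSubring ds_Qb) {ℓ : ℕ} [hℓ : Fact ℓ.Prime]
    (hA : A.LiesOverPrime ℓ) : CharP (ResidueField A) ℓ := by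
  have h0 : ((ℓ : ℕ) : ResidueField A) = 0 := by
    have h1 : ((ℓ : A) : ds_Qb) ∈ A.nonunits := by
      have : ((ℓ : A) : ds_Qb) = (ℓ : ds_Qb) := by push_cast; rfl
      rw [this]; exact hA
    have h2 : (ℓ : A) ∈ maximalIdeal A := ValuationSubring.coe_mem_nonunits_iff.mp h1
    have h3 := (residue_eq_zero_iff (ℓ : A)).mpr h2
    rwa [map_natCast] at h3
  obtain ⟨c, hc⟩ := CharP.exists (ResidueField A)
  have hdvd : c ∣ ℓ := (CharP.cast_eq_zero_iff (ResidueField A) c ℓ).mp h0
  rcases (Nat.dvd_prime hℓ.out).mp hdvd with h1 | h1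
  · exact absurd h1 (CharP.char_ne_one (ResidueField A) c)
  · rwa [h1] at hc

theorem dsad_isAlgClosed (A : ValuationSubring ds_Qb) : IsAlgClosed (ResidueField A) := by
  refine IsAlgClosed.of_exists_root _ fun p hp hirr => ?_
  have hsurj : Function.Surjective (residue A) := residue_surjective
  obtain ⟨q0, hq0⟩ := Polynomial.map_surjective (residue A) hsurj p
  have hlift : p ∈ Polynomial.lifts (residue A) := (Polynomial.mem_lifts p).mpr ⟨q0, hq0⟩
  obtain ⟨q, hq, hdeg, hmon⟩ := Polynomial.lifts_and_natDegree_eq_and_monic hlift hp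
  have hdegpos : 0 < p.natDegree :=
    Polynomial.natDegree_pos_iff_degree_pos.mpr (Polynomial.degree_pos_of_irreducible hirr)
  have hq' : (q.map A.subtype).degree ≠ 0 := by
    rw [Polynomial.degree_map_eq_of_injective A.subtype_injective]
    intro h
    rw [Polynomial.degree_eq_natDegree hmon.ne_zero] at h
    have : q.natDegree = 0 := by exact_mod_cast h
    omega
  obtain ⟨α, hα⟩ := IsAlgClosed.exists_root (q.map A.subtype) hq'
  have hint : IsIntegral A α := ⟨q, hmon, by
    rw [Polynomial.IsRoot, Polynomial.eval_map] at hα; exact hα⟩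
  obtain ⟨a, ha⟩ := IsIntegrallyClosed.isIntegral_iff.mp hint
  refine ⟨residue A a, ?_⟩
  rw [← hq, Polynomial.eval_map, Polynomial.eval₂_hom]
  have : Polynomial.eval a q = 0 := by
    apply A.subtype_injective
    rw [map_zero, ← Polynomial.eval₂_hom, ← Polynomial.eval_map]
    have : A.subtype a = α := ha
    rw [this]; exact hα
  rw [this, map_zero]

/-- an element of `Q̄` is a root of a primitive integer polynomial -/
theorem dsad_exists_primitive (b : ds_Qb) :
    ∃ q : ℤ[X], q.IsPrimitive ∧ aeval b q = 0 := by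
  have halgQ : IsAlgebraic ℚ b := (AlgebraicClosure.isAlgebraic ℚ).isAlgebraic b
  have halg : IsAlgebraic ℤ b := (IsFractionRing.isAlgebraic_iff ℤ ℚ ds_Qb).2 halgQ
  obtain ⟨p, hp0, hp⟩ := halg
  refine ⟨p.primPart, p.isPrimitive_primPart, ?_⟩
  have h1 : p = C p.content * p.primPart := p.eq_C_content_mul_primPart
  rw [h1, map_mul, aeval_C] at hp
  rcases mul_eq_zero.1 hp with h | h
  · exfalso
    have hc : p.content ≠ 0 := fun h0 => hp0 (Polynomial.content_eq_zero_iff.1 h0)
    have : ((p.content : ℤ) : ds_Qb) = 0 := by simpa using h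
    exact hc (by exact_mod_cast this)
  · exact h

theorem dsad_place (ℓ : ℕ) [Fact ℓ.Prime] (k : Type) [Field k] [IsAlgClosed k] [CharP k ℓ]
    (φ : ↥(integralClosure ℤ ℂ) →+* k) :
    ∃ (A : ValuationSubring ds_Qb) (θ : ResidueField A →+* k), A.LiesOverPrime ℓ ∧
      ∀ (x : ↥(integralClosure ℤ ℂ)) (x' : A), ds_iota (x' : ds_Qb) = (x : ℂ) →
        θ (residue A x') = φ x := by
  classical
  set φ' : dsad_R →+* k := φ.comp dsad_toZb with hφ'
  set I : Ideal dsad_R := RingHom.ker φ' with hI
  have hItop : I ≠ ⊤ := RingHom.ker_ne_top φ'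
  obtain ⟨B, hRB, hIB⟩ := Ideal.image_subset_nonunits_valuationSubring I hItop
  -- `ℓ ∈ I`
  have hℓI : ((ℓ : ℕ) : dsad_R) ∈ I := by
    rw [hI, RingHom.mem_ker, map_natCast]
    exact CharP.cast_eq_zero k ℓ
  have hBℓ : B.LiesOverPrime ℓ := by
    have := hIB ⟨_, hℓI, rfl⟩
    show (ℓ : ds_Qb) ∈ B.nonunits
    simpa using this
  -- `I` is maximal
  have hIprime : I.IsPrime := RingHom.ker_isPrime φ'
  have hcomap : I.comap (algebraMap ℤ dsad_R) = Ideal.span {(ℓ : ℤ)} := by
    ext n
    rw [Ideal.mem_comap, hI, RingHom.mem_ker, Ideal.mem_span_singleton]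
    rw [eq_intCast, map_intCast]
    exact CharP.intCast_eq_zero_iff k ℓ n
  have hmax : I.IsMaximal := by
    apply Ideal.isMaximal_of_isIntegral_of_isMaximal_comap (R := ℤ) I
    rw [hcomap]
    exact PrincipalIdealRing.isMaximal_of_irreducible
      (Nat.prime_iff_prime_int.1 (Fact.out : ℓ.Prime)).irreducible
  letI : Field (dsad_R ⧸ I) := Ideal.Quotient.field I
  -- the two maps out of `R ⧸ I`
  let inc : dsad_R →+* B := Subring.inclusion hRB
  let g₁ : dsad_R →+* ResidueField B := (residue B).comp inc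
  have hg₁ : ∀ a ∈ I, g₁ a = 0 := by
    intro a ha
    have h1 : ((inc a : B) : ds_Qb) ∈ B.nonunits := hIB ⟨a, ha, rfl⟩
    have h2 : inc a ∈ maximalIdeal B := ValuationSubring.coe_mem_nonunits_iff.mp h1
    exact (residue_eq_zero_iff _).2 h2
  let g : dsad_R ⧸ I →+* ResidueField B := Ideal.Quotient.lift I g₁ hg₁
  let h : dsad_R ⧸ I →+* k := Ideal.Quotient.lift I φ' (fun a ha => ha)
  have hg : ∀ a, g (Ideal.Quotient.mk I a) = residue B (inc a) := fun a => rfl
  have hh : ∀ a, h (Ideal.Quotient.mk I a) = φ' a := fun a => rfl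
  letI : Algebra (dsad_R ⧸ I) (ResidueField B) := g.toAlgebra
  letI : Algebra (dsad_R ⧸ I) k := h.toAlgebra
  have hintcast : ∀ n : ℤ, ((n : ℤ) : dsad_R ⧸ I) = 0 → (ℓ : ℤ) ∣ n := by
    intro n hn
    have := congrArg h hn
    rw [map_intCast, map_zero] at this
    exact (CharP.intCast_eq_zero_iff k ℓ n).1 this
  haveI : Algebra.IsAlgebraic (dsad_R ⧸ I) (ResidueField B) := by
    refine ⟨fun y => ?_⟩
    obtain ⟨b, rfl⟩ := residue_surjective y
    obtain ⟨q, hqprim, hq⟩ := dsad_exists_primitive (b : ds_Qb)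
    refine ⟨q.map (Int.castRingHom (dsad_R ⧸ I)), ?_, ?_⟩
    · intro h0
      have hdvd : (C (ℓ : ℤ)) ∣ q := by
        rw [Polynomial.C_dvd_iff_dvd_coeff]
        intro n
        apply hintcast
        have := congrArg (fun r => r.coeff n) h0
        simpa using this
      have hu : IsUnit (ℓ : ℤ) := hqprim _ hdvd
      have := Int.isUnit_iff.1 hu
      have hℓ2 := (Fact.out : ℓ.Prime).two_le
      omega
    · have hqB : q.eval₂ (Int.castRingHom B) b = 0 := by
        apply Subtype.coe_injective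
        have h1 := Polynomial.hom_eval₂ q (Int.castRingHom B) B.subtype b
        have h2 : B.subtype.comp (Int.castRingHom B) = algebraMap ℤ ds_Qb := RingHom.ext_int _ _
        rw [h2] at h1
        have h3 : q.eval₂ (algebraMap ℤ ds_Qb) (b : ds_Qb) = 0 := by
          rw [← Polynomial.aeval_def]; exact hq
        show B.subtype (q.eval₂ (Int.castRingHom B) b) = B.subtype 0
        rw [h1, map_zero]
        exact h3
      rw [Polynomial.aeval_def, Polynomial.eval₂_map]
      have e1 : (algebraMap (dsad_R ⧸ I) (ResidueField B)).comp (Int.castRingHom (dsad_R ⧸ I)) =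
          (residue B).comp (Int.castRingHom B) := RingHom.ext_int _ _
      rw [e1, ← Polynomial.hom_eval₂, hqB, map_zero]
  let θ : ResidueField B →ₐ[dsad_R ⧸ I] k := IsAlgClosed.lift
  refine ⟨B, θ.toRingHom, hBℓ, ?_⟩
  intro x x' hx
  have hx'int : (x' : ds_Qb) ∈ dsad_R := dsad_mem_R.2 (dsad_isIntegral_of_iota (by rw [hx]; exact x.2))
  set a : dsad_R := ⟨x', hx'int⟩ with ha
  have h1 : residue B x' = algebraMap (dsad_R ⧸ I) (ResidueField B) (Ideal.Quotient.mk I a) := by
    show _ = g (Ideal.Quotient.mk I a)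
    rw [hg]
    rfl
  have h2 : dsad_toZb a = x := Subtype.ext hx
  show θ (residue B x') = φ x
  rw [h1, θ.commutes]
  show h (Ideal.Quotient.mk I a) = φ x
  rw [hh, hφ', RingHom.comp_apply, h2]

end Fermat.Agent.DS
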