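/-
Project DS (S48), adapter cell: FROM THE FAMILY-1 SEAMS TO `dsg_ModL` (input (T) of `dsg_main`).

`dsad_modL : ds_SeamB → ds_SeamW → ds_SeamTcoh → ∀ N ε f, ds_W1 N ε f → dsg_ModL N a_p ε(p)`.

Route: for `ℓ` large and `φ : ℤ̄ → k`, `dsad_place` gives a place `A` of `Q̄` above `ℓ` and
`θ : k_A → k` compatible with `φ`; `ds_SeamW` gives a weight-two eigen-datum on `Γ₁(N ℓ)` congruent
to `f` modulo `𝔪_A`; `g1m_main` (helper5) turns it into an eigenclass `c₀ : Γ₁(N ℓ) → k_A`; we push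
`c₀` forward along `θ` (naturality `g1t_Tadd_comp`, `g1t_diamAdd_comp`) and apply `ds_SeamTcoh`
over `k` itself — so no transport of representations along `θ` is needed.
Prefix `dsad_`.
-/
import Mathlib
import Fermat.Agent.DS.Seams
import Fermat.Agent.DS.Group.Density
import Fermat.Agent.DS.HeckeG1.MainW2
import Fermat.Agent.DS.Adapt.PlacePhi
import Fermat.Agent.DS.Group.LiftPhi

set_option autoImplicit false
set_option linter.style.haveILetI false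

noncomputable section

open CongruenceSubgroup ModularFormClass IsLocalRing
open scoped MatrixGroups ModularForm

namespace Fermat.Agent.DS

open Classical in
/-- reduction modulo `𝔪_A` followed by `θ`, extended by zero outside `A` -/
def dsad_red (A : ValuationSubring ds_Qb) {k : Type} [Field k] (θ : ResidueField A →+* k)
    (x : ds_Qb) : k :=
  if h : x ∈ A then θ (residue A ⟨x, h⟩) else 0

theorem dsad_red_of_mem (A : ValuationSubring ds_Qb) {k : Type} [Field k]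
    (θ : ResidueField A →+* k) {x : ds_Qb} (h : x ∈ A) :
    dsad_red A θ x = θ (residue A ⟨x, h⟩) := by
  unfold dsad_red
  exact dif_pos h

theorem dsad_red_congr (A : ValuationSubring ds_Qb) {k : Type} [Field k]
    (θ : ResidueField A →+* k) {x y : ds_Qb} (hx : x ∈ A) (hxy : x - y ∈ A.nonunits) :
    y ∈ A ∧ dsad_red A θ x = dsad_red A θ y := by
  have hd : x - y ∈ A := A.nonunits_le hxy
  have hy : y ∈ A := by
    have : y = x - (x - y) := by ring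
    rw [this]; exact A.sub_mem hx hd
  refine ⟨hy, ?_⟩
  rw [dsad_red_of_mem A θ hx, dsad_red_of_mem A θ hy]
  congr 1
  rw [← sub_eq_zero, ← map_sub]
  have h1 : ((⟨x, hx⟩ - ⟨y, hy⟩ : A) : ds_Qb) ∈ A.nonunits := hxy
  exact (residue_eq_zero_iff _).2 (ValuationSubring.coe_mem_nonunits_iff.mp h1)

/-- the adapter, core form: algebraic models `α p`, `e p` of `a_p`, `ε(p)`, integral outside `D`. -/
theorem dsad_modL_core (hW : ds_SeamW) (hT : ds_SeamTcoh)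
    (N : ℕ) [NeZero N] (ε : DirichletCharacter ℂ N) (f : CuspForm (Gamma1 N) 1)
    (hf : ds_W1 N ε f) (α e : ℕ → ds_Qb)
    (hαe : ∀ p : ℕ, p.Prime → ¬ p ∣ N →
      ds_iota (α p) = qCoeff f p ∧ ds_iota (e p) = ε (p : ZMod N))
    (D : ℕ) (hD : 0 < D)
    (hαA : ∀ p : ℕ, p.Prime → ¬ p ∣ N → ∀ ℓ : ℕ, ℓ.Prime → ¬ ℓ ∣ D →
      ∀ A : ValuationSubring ds_Qb, A.LiesOverPrime ℓ → α p ∈ A) :
    dsg_ModL N (fun p => qCoeff f p) (fun p => ε (p : ZMod N)) := by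
  classical
  obtain ⟨ℓ₀, hℓ₀⟩ := hW N ε f hf α e hαe D hD hαA
  refine ⟨max ℓ₀ (max (D + 1) 5), ?_⟩
  intro ℓ hℓF hℓge k _ _ _ φ
  have hℓprime : ℓ.Prime := hℓF.out
  have hℓ0 : ℓ₀ ≤ ℓ := le_trans (le_max_left _ _) hℓge
  have hℓD : D + 1 ≤ ℓ := le_trans (le_trans (le_max_left _ _) (le_max_right _ _)) hℓge
  have hℓ5 : 5 ≤ ℓ := le_trans (le_trans (le_max_right _ _) (le_max_right _ _)) hℓge
  have hℓndD : ¬ ℓ ∣ D := Nat.not_dvd_of_pos_of_lt hD (by omega)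
  obtain ⟨A, θ, hA, hθ⟩ := dsad_place ℓ k φ
  obtain ⟨M, hM0, ψ, g, b, β, c, hMeq, hW2, hβc⟩ := hℓ₀ ℓ hℓprime hℓ0 A hA
  subst hMeq
  haveI : IsAlgClosed (ResidueField A) := dsad_isAlgClosed A
  haveI : CharP (ResidueField A) ℓ := dsad_charP A hA
  obtain ⟨c₀, χ, hc₀, hpar, hdiam, hTp⟩ := g1m_main ψ g b hW2 β c
    (fun p hp hpM => ⟨(hβc p hp hpM).1, (hβc p hp hpM).2.1⟩) A
  -- push the eigenclass forward along `θ`
  have hθinj : Function.Injective θ := θ.injective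
  set c₁ : Additive (Gamma1 (N * ℓ)) →+ k := θ.toAddMonoidHom.comp c₀ with hc₁def
  have hc₁app : ∀ γ, c₁ γ = θ (c₀ γ) := fun γ => rfl
  have hsmul : ∀ r : ResidueField A, θ.toAddMonoidHom.comp (r • c₀) = θ r • c₁ := by
    intro r
    refine DFunLike.ext _ _ fun γ => ?_
    show θ (r • c₀ γ) = θ r • θ (c₀ γ)
    rw [smul_eq_mul, smul_eq_mul, map_mul]
  have hc₁ : c₁ ≠ 0 := by
    intro h0
    apply hc₀
    refine DFunLike.ext _ _ fun γ => ?_
    apply hθinj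
    have h1 : θ (c₀ γ) = 0 := DFunLike.congr_fun h0 γ
    rw [h1]; simp
  have hpar₁ : ds_ParTriv c₁ := by
    intro γ hγ
    rw [hc₁app, hpar γ (by rw [hγ]; norm_num), map_zero]
  set ψ₁ : (ZMod (N * ℓ))ˣ →* kˣ := (Units.map θ.toMonoidHom).comp χ with hψ₁
  have hψ₁app : ∀ d, ((ψ₁ d : kˣ) : k) = θ ((χ d : (ResidueField A)ˣ) : ResidueField A) :=
    fun d => rfl
  have hT₁ : ∀ (p : ℕ) [Fact p.Prime] (hpM : ¬ p ∣ N * ℓ),
      g1t_Tadd hpM c₁ = (fun p => dsad_red A θ (β p)) p • c₁ := by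
    intro p _ hpM
    obtain ⟨hb, hc, h1, -⟩ := hTp p hpM
    rw [hc₁def, g1t_Tadd_comp, h1, hsmul]
    show _ = dsad_red A θ (β p) • c₁
    rw [dsad_red_of_mem A θ hb]
  have hD₁ : ∀ d : (ZMod (N * ℓ))ˣ, g1t_diamAdd d c₁ = ((ψ₁ d : kˣ) : k) • c₁ := by
    intro d
    rw [hc₁def, g1t_diamAdd_comp, hdiam d, hsmul, hψ₁app]
  have hM5 : 5 ≤ N * ℓ := by
    have hN : 1 ≤ N := Nat.one_le_iff_ne_zero.2 (NeZero.ne N)
    nlinarith
  obtain ⟨ρ, hρfin, hρss, hρ⟩ := hT (N * ℓ) hM5 ℓ (by omega) k c₁ hc₁ hpar₁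
    (fun p => dsad_red A θ (β p)) ψ₁ hT₁ hD₁
  refine ⟨ρ, hρfin, hρss, ?_⟩
  intro p hp hpM x y hx hy
  haveI : Fact p.Prime := ⟨hp⟩
  have hpℓ : p ≠ ℓ := fun h => hpM (h ▸ Dvd.intro_left N rfl)
  have hpN : ¬ p ∣ N := fun h => hpM (Dvd.dvd.mul_right h ℓ)
  have hres := hρ p hpM hpℓ
  obtain ⟨hιβ, hιc, hβA, hcA, hβα, hce⟩ := hβc p hp hpM
  obtain ⟨hια, hιe⟩ := hαe p hp hpN
  obtain ⟨hb, hc', -, h2⟩ := hTp p hpM
  -- the trace
  have htr : dsad_red A θ (β p) = φ x := by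
    obtain ⟨hαA, h3⟩ := dsad_red_congr A θ hβA hβα
    rw [h3, dsad_red_of_mem A θ hαA]
    exact hθ x ⟨α p, hαA⟩ (by rw [hια]; exact hx.symm)
  -- the determinant
  have hdet : ((ψ₁ (g1t_pU hpM) : kˣ) : k) * (p : k) = φ y := by
    obtain ⟨heA, h3⟩ := dsad_red_congr A θ hcA hce
    rw [hψ₁app, ← map_natCast θ p, ← map_mul, ← h2]
    have h4 : θ (residue A ⟨c p, hc'⟩) = dsad_red A θ (c p) := (dsad_red_of_mem A θ hc').symm
    rw [h4, h3, dsad_red_of_mem A θ heA]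
    exact hθ y ⟨e p, heA⟩ (by rw [hιe]; exact hy.symm)
  rw [← htr, ← hdet]
  exact hres

/-- the adapter from the family-1 seam `ds_SeamB`. -/
theorem dsad_modL (hB : ds_SeamB) (hW : ds_SeamW) (hT : ds_SeamTcoh)
    (N : ℕ) [NeZero N] (ε : DirichletCharacter ℂ N) (f : CuspForm (Gamma1 N) 1)
    (hf : ds_W1 N ε f) :
    dsg_ModL N (fun p => qCoeff f p) (fun p => ε (p : ZMod N)) := by
  obtain ⟨K, D, α, e, hK, hD, hαe, -⟩ := hB N ε f hf
  exact dsad_modL_core hW hT N ε f hf α e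
    (fun p hp hpN => ⟨(hαe p hp hpN).2.2.1, (hαe p hp hpN).2.2.2.1⟩) D hD
    (fun p hp hpN ℓ hℓ hℓD A hA => (hαe p hp hpN).2.2.2.2 ℓ hℓ hℓD A hA)

/-- the values of a Dirichlet character are algebraic integers -/
theorem dsad_char_isIntegral {N : ℕ} [NeZero N] (ε : DirichletCharacter ℂ N) (a : ZMod N) :
    IsIntegral ℤ (ε a) := by
  by_cases ha : IsUnit a
  · obtain ⟨u, rfl⟩ := ha
    have hcard : 0 < Fintype.card (ZMod N)ˣ := Fintype.card_pos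
    refine IsIntegral.of_pow hcard ?_
    rw [← map_pow, ← Units.val_pow_eq_pow_val, pow_card_eq_one, Units.val_one, map_one]
    exact isIntegral_one
  · rw [MulChar.map_nonunit ε ha]
    exact isIntegral_zero

/-- the adapter from full integrality of the `a_p` (`= hint` of `dsg_main`), `D = 1`. -/
theorem dsad_modL_of_int (hW : ds_SeamW) (hT : ds_SeamTcoh)
    (N : ℕ) [NeZero N] (ε : DirichletCharacter ℂ N) (f : CuspForm (Gamma1 N) 1)
    (hf : ds_W1 N ε f)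
    (hint : ∀ p : ℕ, p.Prime → ¬ p ∣ N → IsIntegral ℤ (qCoeff f p)) :
    dsg_ModL N (fun p => qCoeff f p) (fun p => ε (p : ZMod N)) := by
  classical
  have h1 : ∀ p : ℕ, ∃ t : ds_Qb, (p.Prime → ¬ p ∣ N → IsIntegral ℤ t ∧ ds_iota t = qCoeff f p) := by
    intro p
    by_cases hp : p.Prime ∧ ¬ p ∣ N
    · obtain ⟨t, ht1, ht2⟩ := dsg_lw_exists_iota_eq _ (hint p hp.1 hp.2)
      exact ⟨t, fun _ _ => ⟨ht1, ht2⟩⟩
    · exact ⟨0, fun h1 h2 => absurd ⟨h1, h2⟩ hp⟩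
  have h2 : ∀ p : ℕ, ∃ t : ds_Qb, ds_iota t = ε (p : ZMod N) := by
    intro p
    obtain ⟨t, -, ht2⟩ := dsg_lw_exists_iota_eq _ (dsad_char_isIntegral ε (p : ZMod N))
    exact ⟨t, ht2⟩
  choose α hα using h1
  choose e he using h2
  exact dsad_modL_core hW hT N ε f hf α e
    (fun p hp hpN => ⟨(hα p hp hpN).2, he p⟩) 1 one_pos
    (fun p hp hpN ℓ _ _ A _ => dsg_lp_mem_of_isIntegral A (hα p hp hpN).1)

end Fermat.Agent.DS
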