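/-
Project DS (S48): THE TOP ASSEMBLY, conditional on the single remaining seam `ds_SeamTcoh` (DS-T).

`dsad_S48_of_tcoh : ds_SeamTcoh → (the statement of S48 verbatim)`.

Inputs, all theorems on main:
* `dsg_main`            (DS-G, helper9)   the group-theoretic endgame;
* `dsC_chebotarev`      (DS-C, helper19/helper13) Chebotarev over `ℚ`;
* `dsb_ap_integral`, `dsb_seamBint` (DS-B, helper8) integrality / number field / conjugates;
* `dsg_fewTraces_of_seamB` (helper19) few traces;
* `dsa_main`            (DS-A, helper8)   Rankin;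
* `dsW_main`            (DS-W)            weight shift;
* `dsad_modL_of_int`    (this cell)       `ds_SeamW + ds_SeamTcoh ⟹ dsg_ModL`.
Prefix `dsad_`.
-/
import Mathlib
import Fermat.Agent.DS.Group.Main
import Fermat.Agent.DS.Group.FewTraces
import Fermat.Agent.DS.Cheb.Main
import Fermat.Agent.DS.Conj.Seam
import Fermat.Agent.DS.Rankin.Main
import Fermat.Agent.DS.Wt.Main
import Fermat.Agent.DS.Adapt.ModL

set_option autoImplicit false

open CongruenceSubgroup ModularFormClass
open scoped MatrixGroups ModularForm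

namespace Fermat.Agent.DS

/-- `ds_Conclusion` for every `ds_W1`-datum, from the tower seam alone. -/
theorem dsad_conclusion_of_tcoh (hTcoh : ds_SeamTcoh) (N : ℕ) [NeZero N]
    (ε : DirichletCharacter ℂ N) (f : CuspForm (Gamma1 N) 1) (hf : ds_W1 N ε f) :
    ds_Conclusion N ε f := by
  have hint := (dsb_ap_integral ε f hf).1
  exact dsg_main dsC_chebotarev N ε f hint (dsa_main N ε f hf.one hf.hecke)
    (dsg_fewTraces_of_seamB dsb_seamBint N ε f hf)
    (dsad_modL_of_int dsW_main hTcoh N ε f hf hint)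

/-- **S48 (Deligne–Serre)**, verbatim, from the tower seam `ds_SeamTcoh` alone. -/
theorem dsad_S48_of_tcoh (hTcoh : ds_SeamTcoh)
    (N : ℕ) [NeZero N] (ε : DirichletCharacter ℂ N) (f : CuspForm (Gamma1 N) 1)
    (hf₁ : ModularFormClass.qCoeff f 1 = 1)
    (hT : ∀ p : ℕ, p.Prime → ¬ p ∣ N → ∀ n : ℕ,
        ModularFormClass.qCoeff f (p * n) +
            ε (p : ZMod N) * (if p ∣ n then ModularFormClass.qCoeff f (n / p) else 0) =
          ModularFormClass.qCoeff f p * ModularFormClass.qCoeff f n) :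
    ∃ ρ : (AlgebraicClosure ℚ ≃ₐ[ℚ] AlgebraicClosure ℚ) →* GL (Fin 2) ℂ,
      GaloisFactorsThroughFiniteLevel ρ ∧
      (Deformation.matrixRepresentation ρ).IsIrreducible ∧
      ∀ p : ℕ, p.Prime → ¬ p ∣ N →
        ∀ A : ValuationSubring (AlgebraicClosure ℚ), A.LiesOverPrime p →
          (∀ σ ∈ A.inertiaSubgroupIn ℚ, ρ σ = 1) ∧
          ∀ σ : (AlgebraicClosure ℚ ≃ₐ[ℚ] AlgebraicClosure ℚ), A.IsFrobeniusAt σ p →
            ((ρ σ : GL (Fin 2) ℂ) : Matrix (Fin 2) (Fin 2) ℂ).trace = ModularFormClass.qCoeff f p ∧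
            ((ρ σ : GL (Fin 2) ℂ) : Matrix (Fin 2) (Fin 2) ℂ).det = ε (p : ZMod N) :=
  dsad_conclusion_of_tcoh hTcoh N ε f ⟨hf₁, hT⟩

end Fermat.Agent.DS
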